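import Fermat.Agent.S59
import Fermat.Agent.S51
import Fermat.Agent.S52
import Fermat.Agent.S45
import Fermat.Agent.S07
import Fermat.Agent.S09
import Fermat.Agent.S02
import Fermat.Agent.S45.Top.Frey

/-!
# Cond / Wire : what the tree proves about the five unpaid top statements

`LTStmt` is residual modularity at `3` (Langlands-Tunnell for semistable curves) in the form that
feeds the modularity lifting theorem `S59.result` directly: some level `M > 0`, cube-free away
from `3`, with `¬ 9 ∣ M`.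

From `LTStmt` ALONE this file derives, with no other hypothesis, the statements of

* S60 : `isModular_of_lt`            (every semistable integral Weierstrass curve is modular),
* S04 : `freyCurve_isModular_of_lt`  (the Frey curve is modular),
* S06 : `modularRepOfLevel_of_lt`    (its mod-`p` representation is modular of a conductor level),
* S03 : `false_of_lt`                (no Frey package exists),
* S01 : `flt_of_lt`                  (Fermat's Last Theorem).

It uses S59 (lifting at `3` and `5`), S51 (`3` or `5` is irreducible), S52 (the 3-5 switch),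
S45, S07, S09, S02 and the cases `n = 3`, `n = 4` of Mathlib.

Remark (gap G1).  The third accepted form of row 42 (S50) is slightly WEAKER than `LTStmt`: instead of
`¬ 9 ∣ M` it only says that `9 ∣ M` forces the absence of inertia-fixed `3`-torsion at `3`.  Passing
from that form to `LTStmt` is a level lowering at `p = 3` from `p ^ k` to `p ^ (≤ 1)`, which is not
proved in this tree.
-/

set_option autoImplicit false

namespace Fermat.Agent.Cond

/-- Residual modularity at `3` of semistable curves, at a level accepted by `S59.result`. -/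
def LTStmt : Prop :=
  ∀ W : WeierstrassCurve ℤ, W.Δ ≠ 0 → W.IsSemistableModel → W.ModRepIsIrreducible 3 →
    ∃ M : ℕ, 0 < M ∧ W.IsResiduallyModularOfLevel 3 M ∧
      (∀ q : ℕ, q.Prime → q ≠ 3 → ¬ q ^ 3 ∣ M) ∧ ¬ 3 ^ 2 ∣ M

/-- the case `ρ̄₃` irreducible. -/
theorem exact_of_three (h : LTStmt) (W : WeierstrassCurve ℤ) (hΔ : W.Δ ≠ 0)
    (hW : W.IsSemistableModel) (h3 : W.ModRepIsIrreducible 3) :
    Mlc1IsModularModelOfExactConductorLevel W := by
  obtain ⟨M, hM, hres, hcube, h9⟩ := h W hΔ hW h3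
  have : NeZero M := ⟨hM.ne'⟩
  exact S59.result 3 (Or.inl rfl) W hΔ hW h3 M hres h9 hcube

theorem not_pow_dvd_of_squarefree {N q k : ℕ} (hN : Squarefree N) (hq : q.Prime) (hk : 2 ≤ k) :
    ¬ q ^ k ∣ N := by
  intro h
  have h2 : q * q ∣ N := by
    rw [← pow_two]; exact (pow_dvd_pow q hk).trans h
  exact hq.one_lt.ne' (Nat.isUnit_iff.1 (hN q h2))

/-- the case `ρ̄₅` irreducible: the 3-5 switch. -/
theorem exact_of_five (h : LTStmt) (W : WeierstrassCurve ℤ) (hΔ : W.Δ ≠ 0)
    (hW : W.IsSemistableModel) (h5 : W.ModRepIsIrreducible 5) :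
    Mlc1IsModularModelOfExactConductorLevel W := by
  obtain ⟨W', hΔ', hW', h3', hcong⟩ := S52.result W hΔ hW h5
  obtain ⟨N, hN, hsq, hiff, f, hf, hap⟩ := exact_of_three h W' hΔ' hW' h3'
  have : NeZero N := ⟨hN.ne'⟩
  obtain ⟨𝔪, hmax, hmem⟩ := FLTPrelim.exists_maximalIdeal_natCast_prime_mem (p := 5) (by norm_num)
  have hres : W.IsResiduallyModularOfLevel 5 N := by
    refine ⟨f, 𝔪, hf, hmax, hmem, ?_⟩
    intro ℓ hℓ hg hℓN hℓ5
    have hg' : W'.IsGoodPrimeFor ℓ := fun hd => hℓN ((hiff ℓ hℓ).2 hd)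
    refine ⟨((W'.apOfModel ℓ : ℤ) : integralClosure ℤ ℂ), ?_, ?_⟩
    · rw [hap ℓ hℓ hg' hℓN]; simp
    · obtain ⟨c, hc⟩ := hcong ℓ hℓ hg hg' hℓ5
      have : ((W'.apOfModel ℓ : ℤ) : integralClosure ℤ ℂ) - ((W.apOfModel ℓ : ℤ) : integralClosure ℤ ℂ)
          = ((5 : ℕ) : integralClosure ℤ ℂ) * ((c : ℤ) : integralClosure ℤ ℂ) := by
        rw [← Int.cast_sub, hc]; push_cast; ring
      rw [this]
      exact 𝔪.mul_mem_right _ hmem
  exact S59.result 5 (Or.inr rfl) W hΔ hW h5 N hres
    (not_pow_dvd_of_squarefree hsq (by norm_num) le_rfl)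
    (fun q hq _ => not_pow_dvd_of_squarefree hsq hq (by norm_num))

/-- every semistable curve is modular of its exact conductor level. -/
theorem exact_of_lt (h : LTStmt) (W : WeierstrassCurve ℤ) (hΔ : W.Δ ≠ 0)
    (hW : W.IsSemistableModel) : Mlc1IsModularModelOfExactConductorLevel W :=
  (S51.result W hΔ hW).elim (exact_of_three h W hΔ hW) (exact_of_five h W hΔ hW)

/-- the statement of S60. -/
theorem isModular_of_lt (h : LTStmt) (W : WeierstrassCurve ℤ) (hΔ : W.Δ ≠ 0)
    (hW : W.IsSemistableModel) : (W.map (Int.castRingHom ℚ)).IsModular := by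
  obtain ⟨N, hN, -, -, hmod⟩ := exact_of_lt h W hΔ hW
  exact ⟨W, ⟨1, one_smul _ _⟩, N, hN, hmod⟩

/-- the statement of S04. -/
theorem freyCurve_isModular_of_lt (h : LTStmt) (P : FreyPackage) : P.freyCurve.IsModular := by
  have := isModular_of_lt h P.freyCurveInt (S45.freyCurveInt_Δ_ne_zero P)
    (S45.freyCurveInt_isSemistableModel P)
  rwa [MAZ.End.freyCurveInt_map] at this

/-- the statement of S06. -/
theorem modularRepOfLevel_of_lt (h : LTStmt) (P : FreyPackage) :
    ∃ N : ℕ, P.IsConductorLevel N ∧ P.ModularRepOfLevel N := by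
  obtain ⟨N, hN, hsq, hiff, f, hf, hap⟩ := exact_of_lt h P.freyCurveInt
    (S45.freyCurveInt_Δ_ne_zero P) (S45.freyCurveInt_isSemistableModel P)
  obtain ⟨𝔪, hmax, hmem⟩ := FLTPrelim.exists_maximalIdeal_natCast_prime_mem P.pp
  refine ⟨N, ⟨hN, hsq, fun q hq hqN => S45.dvd_abc_of_dvd_disc P hq ((hiff q hq).1 hqN)⟩,
    f, P.freyCurveInt, 𝔪, hf, S45.freyCurveInt_isIntegralModelOf P, hmax, hmem, ?_⟩
  intro ℓ hℓ hg hℓN _
  refine ⟨((P.freyCurveInt.apOfModel ℓ : ℤ) : integralClosure ℤ ℂ), ?_, ?_⟩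
  · rw [hap ℓ hℓ hg hℓN]; simp
  · rw [sub_self]; exact 𝔪.zero_mem

/-- the statement of S03. -/
theorem false_of_lt (h : LTStmt) (P : FreyPackage) : False := by
  obtain ⟨f, hf⟩ := S45.result P (freyCurve_isModular_of_lt h P) (S09.result P)
  exact hf (S07.result f)

/-- the statement of S01: Fermat's Last Theorem follows from `LTStmt` alone. -/
theorem flt_of_lt (h : LTStmt) (n : ℕ) (hn : 3 ≤ n) (a b c : ℕ) (ha : 0 < a) (hb : 0 < b)
    (hc : 0 < c) : a ^ n + b ^ n ≠ c ^ n := by
  have hFLT : FermatLastTheorem := by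
    refine FermatLastTheorem.of_odd_primes ?_
    intro p pp hodd
    by_cases h3 : p = 3
    · subst h3; exact fermatLastTheoremThree
    have hp5 : 5 ≤ p := by
      have h2 := pp.two_le
      rcases hodd with ⟨k, hk⟩
      by_contra hlt
      have : p = 2 ∨ p = 3 ∨ p = 4 := by omega
      rcases this with rfl | rfl | rfl
      · omega
      · exact h3 rfl
      · omega
    rw [fermatLastTheoremFor_iff_int]
    intro x y z hx hy hz H
    obtain ⟨P⟩ := S02.result x y z hx hy hz p pp hp5 H
    exact false_of_lt h P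
  exact hFLT n hn a b c ha.ne' hb.ne' hc.ne'

end Fermat.Agent.Cond
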